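import Mathlib
import Fermat.Agent.H21.CocDefs

/-!
# HF-A1: `Gamma0 N` is finitely generated (explicit finite generating family)

`SL(2, ℤ)` is generated by `S` and `T`, `Gamma0 N` has finite index, so by Schreier's lemma it is
finitely generated; we transport a finite generating family of the subgroup (as a group) to
`SL(2, ℤ)`.
-/

open UpperHalfPlane CongruenceSubgroup Matrix.SpecialLinearGroup
open scoped MatrixGroups ModularForm Manifold
open Fermat.Agent.H21

namespace Fermat.Agent.H6

/-- `SL(2, ℤ)` is a finitely generated group. -/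
theorem sl2Z_group_fg : Group.FG SL(2, ℤ) := by
  rw [Group.fg_iff]
  refine ⟨{ModularGroup.S, ModularGroup.T}, ?_, by simp⟩
  exact _root_.SpecialLinearGroup.SL2Z_generators

/-- A finitely generated subgroup has a finite generating family indexed by `Fin m`. -/
theorem subgroup_fg_exists_fin_generators {G : Type*} [Group G] (H : Subgroup G) (hH : H.FG) :
    ∃ (m : ℕ) (gens : Fin m → G), (∀ j, gens j ∈ H) ∧ Subgroup.closure (Set.range gens) = H := by
  obtain ⟨s, hs⟩ := hH
  refine ⟨s.card, fun j => (s.equivFin.symm j : G), fun j => ?_, ?_⟩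
  · rw [← hs]
    exact Subgroup.subset_closure (s.equivFin.symm j).2
  · rw [← hs]
    congr 1
    ext x
    constructor
    · rintro ⟨j, rfl⟩
      exact (s.equivFin.symm j).2
    · intro hx
      exact ⟨s.equivFin ⟨x, hx⟩, by simp⟩

theorem gamma0_exists_generators (N : ℕ) [NeZero N] :
    ∃ (m : ℕ) (gens : Fin m → SL(2, ℤ)),
      (∀ j, gens j ∈ Gamma0 N) ∧ Subgroup.closure (Set.range gens) = Gamma0 N := by
  have : Group.FG SL(2, ℤ) := sl2Z_group_fg
  have : Group.FG (Gamma0 N) := Subgroup.fg_of_index_ne_zero (Gamma0 N)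
  exact subgroup_fg_exists_fin_generators (Gamma0 N) ((Group.fg_iff_subgroup_fg _).mp inferInstance)

end Fermat.Agent.H6
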