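import Mathlib.NumberTheory.ModularForms.CongruenceSubgroups
import Mathlib.NumberTheory.ModularForms.CuspFormSubmodule
import Mathlib.NumberTheory.ModularForms.QExpansion
import Fermat.Prelude.Thm_ModularForm_sturm_bound_Gamma0

/-!
# Weight-2 cusp forms of level `Γ₀(2)` and `Γ₀(1)` vanish

Via the Sturm bound of the prelude: it suffices that `2 * [SL₂(ℤ) : Γ₀(N)] < 12`
and that the constant coefficient of a cusp form vanishes.
-/

namespace Fermat.Agent.H6

open scoped MatrixGroups
open UpperHalfPlane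

/-- The index of `Γ₀(2)` in `SL(2, ℤ)` is at most `4` (it is in fact `3`): a left coset is
determined by the first column modulo `2`. -/
theorem index_Gamma0_two_le : (CongruenceSubgroup.Gamma0 2).index ≤ 4 := by
  classical
  let φ : (SL(2, ℤ) ⧸ CongruenceSubgroup.Gamma0 2) → ZMod 2 × ZMod 2 :=
    fun q => (((q.out 0 0 : ℤ) : ZMod 2), ((q.out 1 0 : ℤ) : ZMod 2))
  have hφ : Function.Injective φ := by
    intro q q' h
    rw [← QuotientGroup.out_eq' q, ← QuotientGroup.out_eq' q', QuotientGroup.eq,
      CongruenceSubgroup.Gamma0_mem]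
    have h0 : ((q.out 0 0 : ℤ) : ZMod 2) = ((q'.out 0 0 : ℤ) : ZMod 2) := congrArg Prod.fst h
    have h1 : ((q.out 1 0 : ℤ) : ZMod 2) = ((q'.out 1 0 : ℤ) : ZMod 2) := congrArg Prod.snd h
    have key : (q.out⁻¹ * q'.out) 1 0 = -(q.out 1 0) * (q'.out 0 0) + (q.out 0 0) * (q'.out 1 0) := by
      rw [Matrix.SpecialLinearGroup.coe_mul, Matrix.SpecialLinearGroup.SL2_inv_expl,
        Matrix.mul_apply, Fin.sum_univ_two]
      simp
    rw [key]
    push_cast
    rw [h0, h1]
    ring
  calc (CongruenceSubgroup.Gamma0 2).index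
      = Nat.card (SL(2, ℤ) ⧸ CongruenceSubgroup.Gamma0 2) := rfl
    _ ≤ Nat.card (ZMod 2 × ZMod 2) := Nat.card_le_card_of_injective φ hφ
    _ = 4 := by simp [Nat.card_eq_fintype_card]

/-- Weight-2 cusp forms of level `Γ₀(2)` vanish. -/
theorem cuspForm_Gamma0_two_weight_two_eq_zero
    (f : CuspForm (CongruenceSubgroup.Gamma0 2) 2) : f = 0 := by
  have h : CuspForm.toModularFormₗ f = 0 := by
    refine ModularForm.sturm_bound_Gamma0 2 (k := 2) (CuspForm.toModularFormₗ f) ?_
    intro n hn
    have hidx := index_Gamma0_two_le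
    have hn0 : n = 0 := by omega
    subst hn0
    exact CuspFormClass.qExpansion_coeff_zero f one_pos
      (by simp [CongruenceSubgroup.strictPeriods_Gamma0])
  apply CuspForm.toModularFormₗ_injective
  rw [h, map_zero]

/-- Weight-2 cusp forms of level `Γ₀(1)` vanish. -/
theorem cuspForm_Gamma0_one_weight_two_eq_zero
    (f : CuspForm (CongruenceSubgroup.Gamma0 1) 2) : f = 0 := by
  have hidx : (CongruenceSubgroup.Gamma0 1).index = 1 := by
    rw [Subgroup.index_eq_one]
    ext g
    simp [CongruenceSubgroup.Gamma0_mem, eq_iff_true_of_subsingleton]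
  have h : CuspForm.toModularFormₗ f = 0 := by
    refine ModularForm.sturm_bound_Gamma0 1 (k := 2) (CuspForm.toModularFormₗ f) ?_
    intro n hn
    rw [hidx] at hn
    have hn0 : n = 0 := by omega
    subst hn0
    exact CuspFormClass.qExpansion_coeff_zero f one_pos
      (by simp [CongruenceSubgroup.strictPeriods_Gamma0])
  apply CuspForm.toModularFormₗ_injective
  rw [h, map_zero]

end Fermat.Agent.H6
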